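/-
Project ONE MACHINE, block [F], cell (Z4) [HeckeRes-tame], abstract leaf (helper11; prefix `twfh_`):
`B_eis` FROM A HECKE-EIGEN UNIT, **ANY MODULUS** `m` (twin of `s44he_B_eis_of_unit`,
S44/HeckeRes/AbsEis.lean, which needs `ZMod p` to be a field).

`φ, ψ : F → F'`, `SS` a set of places of `F`, `B = s44he_B φ ψ hφ hψ m SS` (S44/HeckeRes/AbsHK.lean: the
definition takes an arbitrary natural number as modulus).

* `twfh_B_eis_of_unit` : if `ū ∈ F^×` satisfies `ord_Q (N_ψ (φ ū)) = n · ord_Q ū` on `SS`,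
  `kk(Q) · (ord_Q ū mod m) = 1` on `SS`, and `m ∣ ord ū` at the places `w|_φ ∉ SS` with `w|_ψ ∈ SS`,
  then `B (1/kk) = n • (1/kk)` in `SS → ZMod m`.
-/
import Mathlib
import Fermat.Agent.S44.HeckeRes.AbsEis

set_option autoImplicit false
set_option linter.style.haveILetI false
set_option linter.unusedSectionVars false

noncomputable section

namespace Fermat.Agent.TW

open AlgebraicCurve Fermat.Agent.S35 Fermat.Agent.S44

universe u v w
variable {K : Type u} {F : Type v} {F' : Type w} [Field K] [Field F] [Field F'] [Algebra K F]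
  [Algebra K F'] [HasPrincipalDivisors K F']
variable (φ ψ : F →ₐ[K] F') (hφ : φ.toRingHom.IsIntegral) (hψ : ψ.toRingHom.IsIntegral)
variable (m : ℕ) (SS : Set (Place K F))

/-- **(E3-EIS) from a Hecke-eigen unit, any modulus**: `B (1/kk) = n • (1/kk)`. -/
theorem twfh_B_eis_of_unit (hfin : FiniteAlong K ψ)
    (hN : NormFormulaAlong K ψ hfin) (kk : ↥SS → ZMod m) (n : ℕ) {ub : F} (hub : ub ≠ 0)
    {D : Divisor K F} (hD : ∀ v : Place K F, D v = v.ord ub)
    (hT : ∀ Q : ↥SS, (Q : Place K F).ord (s35pe_normAlong ψ (φ ub)) =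
      (n : ℤ) * (Q : Place K F).ord ub)
    (hSS : ∀ Q : ↥SS, kk Q * (((Q : Place K F).ord ub : ℤ) : ZMod m) = 1)
    (hoff : ∀ w : Place K F', w.restrictAlong ψ hψ ∈ SS → w.restrictAlong φ hφ ∉ SS →
      (m : ℤ) ∣ (w.restrictAlong φ hφ).ord ub) :
    s44he_B φ ψ hφ hψ m SS (fun Q => (kk Q)⁻¹) = (n : ZMod m) • fun Q => (kk Q)⁻¹ := by
  have hinv : ∀ Q : ↥SS, (kk Q)⁻¹ = (((Q : Place K F).ord ub : ℤ) : ZMod m) :=
    fun Q => ZMod.inv_eq_of_mul_eq_one m _ _ (hSS Q)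
  have hfun : (fun Q : ↥SS => (kk Q)⁻¹) =
      fun Q : ↥SS => (((Q : Place K F).ord ub : ℤ) : ZMod m) := funext hinv
  rw [hfun]
  funext Q
  have h2 := s44he_ord_B' φ ψ hφ hψ m SS hfin hN hub hD hoff Q
  rw [Pi.smul_apply, smul_eq_mul, ← h2, hT Q]
  push_cast
  rfl

end Fermat.Agent.TW

end
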