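/-
Project ONE MACHINE, block [F], cell (Z4) [HeckeRes-tame], part 1 (helper11; prefix `twfh_`):
**(★★) FOR TWO PRIMES**.

`A` a valuation subring of `ℚ̄` over the prime `q`, `q ∤ M`, level `M q`, ANY torsion exponent `m`
(helper20's vocabulary `TW/Easy/Res/Defs.lean`: `twfr_Fbar A M q m z fb` = "`fb ≠ 0` is the
`w_∞`-reduction of a representative `f` of `z`, `div f = m D`, `[D] = z`").

* `twfh_fbar_hecke` : `twfr_Fbar A M q m z fb → twfr_Fbar A M q m (T_ℓ z) (N_ᾱ (β̄ fb))` for EVERY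
  prime `ℓ ∤ M q` (NO condition relating `ℓ` and `m`).

Twin of `s44ha_red_hecke` / `s44ha_fbar_hecke` (S44/HeckeRes/{Asm,AsmRes}.lean); everything below
the top layer is exponent-free and re-used verbatim with `p := q`: (E3-2) `s44ha_normRed` (the residue
map commutes with the norms along `α`, `ᾱ`), helper28's residue dictionary `s44rd_*`, and
`s44hr_rep_hecke` (already stated for an arbitrary exponent).
-/
import Mathlib
import Fermat.Agent.S44.HeckeRes.AsmRes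
import Fermat.Agent.TW.Easy.Res.Defs

set_option autoImplicit false
set_option linter.unusedSectionVars false
set_option linter.unusedVariables false
set_option linter.style.haveILetI false
set_option synthInstance.maxHeartbeats 400000
set_option maxHeartbeats 1000000

noncomputable section

namespace Fermat.Agent.TW

open ModularCurve AlgebraicCurve IntermediateField IsLocalRing
open Fermat.Agent.JT3 Fermat.Agent.SS Fermat.Agent.S35 Fermat.Agent.S24 Fermat.Agent.S28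
open Fermat.Agent.MZ Fermat.Agent.S44

local notation "Qb" => AlgebraicClosure ℚ

section Star

variable (A : ValuationSubring Qb) {q : ℕ} [hq : Fact q.Prime] (hA : A.LiesOverPrime q)
  (M : ℕ) [NeZero M] [NeZero q] [NeZero (M * q)] (hqM : ¬ q ∣ M) {m : ℕ}

include hA in
theorem twfh_not_dvd_prime (ℓ : Nat.Primes) (hℓN : ¬ (ℓ : ℕ) ∣ M * q) : ¬ q ∣ (ℓ : ℕ) :=
  fun hd => hℓN ((Nat.prime_dvd_prime_iff_eq hq.out ℓ.2).mp hd ▸ Dvd.intro_left M rfl)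

include hA hqM in
/-- **(★★), two primes, any exponent**: if `fb` is the reduction of a Gauss-unit representative of
`z` (exponent `m`), then `N_ᾱ (β̄ fb)` is the reduction of a Gauss-unit representative of `T_ℓ z`
(exponent `m`), for every prime `ℓ ∤ M q`. -/
theorem twfh_fbar_hecke (ℓ : Nat.Primes) (hℓN : ¬ (ℓ : ℕ) ∣ M * q) {z : JZero (M * q)}
    {fb : s44e_FF A M} (h : twfr_Fbar A M q m z fb) :
    twfr_Fbar A M q m (heckeOperatorBar (M * q) ℓ z)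
      (haveI : NeZero (ℓ : ℕ) := ⟨ℓ.2.ne_zero⟩
       s35pe_normAlong (mzrh_alC (s44e_kA A) M ℓ) (mzrh_beC (s44e_kA A) M ℓ fb)) := by
  haveI : NeZero (ℓ : ℕ) := ⟨ℓ.2.ne_zero⟩
  haveI := jcr_charP A hA
  haveI := jcr_isAlgClosed A
  have hqℓ : ¬ q ∣ (ℓ : ℕ) := twfh_not_dvd_prime A hA M ℓ hℓN
  have hqMℓ : ¬ q ∣ M * (ℓ : ℕ) := mzrh_not_dvd_mul M (ℓ : ℕ) hqM hqℓ
  have hnorm := s44ha_normRed A hA M hqM (ℓ : ℕ) ℓ.2 hℓN hqMℓ
  obtain ⟨hfb0, f, hf, hred⟩ := h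
  obtain ⟨h1, rfl⟩ := s44e_redOf_eq_red A hA M hqM hred
  have h2 : f⁻¹ ∈ s44pg_W A hA hq.out.ne_zero (M * q) :=
    ((s44rd_red_ne_zero_iff A hA M hqM ⟨f, h1⟩).1 hfb0).2
  -- `β f` is a unit of `W∞(N ℓ)`
  have hβ1 : heckeBetaBar Qb (M * q) ℓ f ∈ s44pg_W A hA hq.out.ne_zero (M * q * ℓ) :=
    (s44rd_beta_mem_iff A hA (ℓ : ℕ) f).2 h1
  have hβ2 : (heckeBetaBar Qb (M * q) ℓ f)⁻¹ ∈ s44pg_W A hA hq.out.ne_zero (M * q * ℓ) := by
    rw [← map_inv₀]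
    exact (s44rd_beta_mem_iff A hA (ℓ : ℕ) f⁻¹).2 h2
  -- its reduction is `β̄ (red f)`
  have hredβ : s44rd_redG A hA (s44rd_level_mul (rfl : M * q = M * q) (ℓ : ℕ)) hqMℓ
      ⟨heckeBetaBar Qb (M * q) ℓ f, hβ1⟩ =
      mzrh_beC (ResidueField ↥A) M ℓ (s44rd_red A hA M hqM ⟨f, h1⟩) := by
    rw [← s44rd_redG_eq_red]
    exact s44rd_red_beta A hA (rfl : M * q = M * q) hqM (ℓ : ℕ) hqMℓ ⟨f, h1⟩
  obtain ⟨hn, hnred⟩ := hnorm ⟨heckeBetaBar Qb (M * q) ℓ f, hβ1⟩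
  rw [hredβ] at hnred
  -- the norm of a nonzero element is nonzero
  have hβfb0 : mzrh_beC (ResidueField ↥A) M ℓ (s44rd_red A hA M hqM ⟨f, h1⟩) ≠ 0 := by
    rw [Ne, map_eq_zero]
    exact hfb0
  haveI := mzrh_hasPrincipalDivisorsC (k := ResidueField ↥A) M (ℓ : ℕ) (jcr_rho A hA) hqM hqℓ
  have hN0 : s35pe_normAlong (mzrh_alC (ResidueField ↥A) M ℓ)
      (mzrh_beC (ResidueField ↥A) M ℓ (s44rd_red A hA M hqM ⟨f, h1⟩)) ≠ 0 :=
    s44hk_normAlong_ne_zero _ (mzrh_finiteAlong_alC M (ℓ : ℕ) (jcr_rho A hA) hqM hqℓ) hβfb0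
  refine ⟨hN0, s44hr_T (M * q) ℓ f, s44hr_rep_hecke (M * q) m ℓ z f hf, hn, ?_⟩
  rw [← hnred]
  rfl

include hA hqM in
/-- **(★★)** in the packaged shape of the hypothesis `hHecke` of `s44k2d_Delta_of` (S44/OldK), two
primes, exponent `m`. -/
theorem twfh_hHecke (m : ℕ) : ∀ ℓ : Nat.Primes, ¬ (ℓ : ℕ) ∣ M * q → ∀ (z : JZero (M * q))
    (fb : s44e_FF A M), m • z = 0 → twfr_Fbar A M q m z fb →
    twfr_Fbar A M q m (heckeOperatorBar (M * q) ℓ z)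
      (haveI : NeZero (ℓ : ℕ) := ⟨ℓ.2.ne_zero⟩
       s35pe_normAlong (mzrh_alC (s44e_kA A) M ℓ) (mzrh_beC (s44e_kA A) M ℓ fb)) :=
  fun ℓ hℓN _ _ _ h => twfh_fbar_hecke A hA M hqM ℓ hℓN h

end Star

end Fermat.Agent.TW

end
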