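/-
Project ONE MACHINE, block [F], cells (Z3)/(Z4)/(Z5) (helper11; prefix `twfh_`):
**THE WEIGHTS `k` FOR TWO PRIMES**, twin of `s44e_k2` (S44/Res/Defs2.lean, ruling R5).

`A` over the ODD prime `q`, `q ∤ M`; `ū = s44e_ubar A M q` = the `w_∞`-reduction of the modular unit
`Δ(τ)/Δ(qτ)` (exponent-free, re-used verbatim); modulus `m` coprime to `6`:

* `twfh_ordU A M q m Q := ord_Q ū mod m` (EVERY place `Q` of `FF_M / kA`);
* `twfh_k A M q hq hqM m i := (ord_{Q_i} ū mod m)⁻¹` on `Sg = s44e_Sg A M q hq hqM`;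
* `twfh_k_mul_ordU`  : `k_i · (ord_{Q_i} ū mod m) = 1`   (from (U-DIV) `s44udm_udiv`: `ord ū ∣ 12`);
* `twfh_k_isUnit`, `twfh_k_ne_zero` (`m ≠ 1`), `twfh_k_inv : (k_i)⁻¹ = ord_{Q_i} ū mod m`;
* `twfh_k_mul_of_slope` : the SLOPE FORM of mono: `T · ord_Q ū = 12`, `T · ord_Q f̄_z ≡ c_V (mod m)`
  ⟹ `k_Q · ν_Q(z) = c_V · 12⁻¹` in `ZMod m` (twin of `s44e_k2_mul_of_slope`; `ν = twfr_nu`).
-/
import Mathlib
import Fermat.Agent.S44.Res.UDivMain
import Fermat.Agent.TW.Easy.Res.Defs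

set_option autoImplicit false
set_option linter.unusedSectionVars false
set_option linter.unusedVariables false
set_option linter.style.haveILetI false
set_option synthInstance.maxHeartbeats 400000
set_option maxHeartbeats 1000000

noncomputable section

namespace Fermat.Agent.TW

open ModularCurve AlgebraicCurve IsLocalRing
open Fermat.Agent.JT3 Fermat.Agent.SS Fermat.Agent.S35 Fermat.Agent.S24 Fermat.Agent.S44

local notation "Qb" => AlgebraicClosure ℚ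

section Defs

variable (A : ValuationSubring Qb) (M : ℕ) [NeZero M]

/-- `ord_Q ū mod m`, for EVERY place `Q` of `FF_M / kA`. -/
def twfh_ordU (q : ℕ) [NeZero q] [NeZero (M * q)] (m : ℕ)
    (Q : Place (s44e_kA A) (s44e_FF A M)) : ZMod m :=
  ((Q.ord (s44e_ubar A M q) : ℤ) : ZMod m)

/-- **the weights, two primes**: `k_Q = (ord_Q ū mod m)⁻¹`. -/
def twfh_k (q : ℕ) [NeZero q] (hq : q.Prime) [NeZero (M * q)] (hqM : ¬ q ∣ M) (m : ℕ)
    (i : s44e_Sg A M q hq hqM) : ZMod m :=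
  (twfh_ordU A M q m i.1)⁻¹

theorem twfh_k_def (q : ℕ) [NeZero q] (hq : q.Prime) [NeZero (M * q)] (hqM : ¬ q ∣ M) (m : ℕ)
    (i : s44e_Sg A M q hq hqM) : twfh_k A M q hq hqM m i = (twfh_ordU A M q m i.1)⁻¹ := rfl

theorem twfh_ordU_def (q : ℕ) [NeZero q] [NeZero (M * q)] (m : ℕ)
    (Q : Place (s44e_kA A) (s44e_FF A M)) :
    twfh_ordU A M q m Q = ((Q.ord (s44e_ubar A M q) : ℤ) : ZMod m) := rfl

end Defs

/-- an integer dividing `12` is a unit modulo `m` coprime to `6`. -/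
theorem twfh_isUnit_of_dvd_twelve {m : ℕ} (hm6 : Nat.Coprime m 6) {a : ℤ} (ha : a ∣ 12) :
    IsUnit ((a : ℤ) : ZMod m) := by
  obtain ⟨b, hb⟩ := ha
  have h12 : IsUnit ((12 : ℕ) : ZMod m) := by
    rw [ZMod.isUnit_iff_coprime]
    have h2 : Nat.Coprime 2 m := (Nat.Coprime.coprime_dvd_right (by norm_num : 2 ∣ 6) hm6).symm
    have h3 : Nat.Coprime 3 m := (Nat.Coprime.coprime_dvd_right (by norm_num : 3 ∣ 6) hm6).symm
    have : (12 : ℕ) = 2 * 2 * 3 := by norm_num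
    rw [this]
    exact (h2.mul_left h2).mul_left h3
  have e : ((a : ℤ) : ZMod m) * ((b : ℤ) : ZMod m) = ((12 : ℕ) : ZMod m) := by
    rw [← Int.cast_mul, ← hb]
    norm_num
  exact isUnit_of_mul_isUnit_left (e ▸ h12)

section Weights

variable (A : ValuationSubring Qb) {q : ℕ} [hq : Fact q.Prime] (hA : A.LiesOverPrime q)
  (M : ℕ) [NeZero M] [NeZero q] [NeZero (M * q)] (hqM : ¬ q ∣ M) (hq2 : q ≠ 2)
  {m : ℕ} (hm6 : Nat.Coprime m 6)

include hA hq2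

/-- on `Sg`, `ord_Q ū` divides `12` ((U-DIV), on main for every `A` over an odd prime). -/
theorem twfh_ord_ubar_dvd (i : s44e_Sg A M q hq.out hqM) :
    Place.ord i.1 (s44e_ubar A M q) ∣ 12 := by
  have hq2' : ¬ 2 ∣ q := fun h => hq2 ((Nat.prime_dvd_prime_iff_eq Nat.prime_two hq.out).1 h).symm
  exact s44e_ord_ubar_dvd_of_udiv (s44udm_udiv A hA M hqM hq2') i

/-- off `Sg`, at the non-cuspidal places, `ord_Q ū = 0`. -/
theorem twfh_ord_ubar_off (Q : Place (s44e_kA A) (s44e_FF A M))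
    (hj : jcr_j (k := s44e_kA A) M ∈ Q.toValuationSubring)
    (hQ : ¬ s44e_IsSS A M q hq.out hqM Q) : Q.ord (s44e_ubar A M q) = 0 := by
  have hq2' : ¬ 2 ∣ q := fun h => hq2 ((Nat.prime_dvd_prime_iff_eq Nat.prime_two hq.out).1 h).symm
  exact s44e_ord_ubar_off (s44udm_udiv A hA M hqM hq2') Q hj hQ

include hm6

theorem twfh_ordU_isUnit (i : s44e_Sg A M q hq.out hqM) : IsUnit (twfh_ordU A M q m i.1) :=
  twfh_isUnit_of_dvd_twelve hm6 (twfh_ord_ubar_dvd A hA M hqM hq2 i)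

/-- `k_i · (ord_{Q_i} ū mod m) = 1`. -/
theorem twfh_k_mul_ordU (i : s44e_Sg A M q hq.out hqM) :
    twfh_k A M q hq.out hqM m i * ((Place.ord i.1 (s44e_ubar A M q) : ℤ) : ZMod m) = 1 := by
  rw [twfh_k_def, ← twfh_ordU_def]
  exact ZMod.inv_mul_of_unit _ (twfh_ordU_isUnit A hA M hqM hq2 hm6 i)

theorem twfh_k_isUnit (i : s44e_Sg A M q hq.out hqM) : IsUnit (twfh_k A M q hq.out hqM m i) :=
  IsUnit.of_mul_eq_one _ (twfh_k_mul_ordU A hA M hqM hq2 hm6 i)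

/-- `(k_i)⁻¹ = ord_{Q_i} ū mod m`. -/
theorem twfh_k_inv (i : s44e_Sg A M q hq.out hqM) :
    (twfh_k A M q hq.out hqM m i)⁻¹ = twfh_ordU A M q m i.1 :=
  ZMod.inv_eq_of_mul_eq_one m _ _ (twfh_k_mul_ordU A hA M hqM hq2 hm6 i)

/-- **mono in the slope form**: `T · ord_Q ū = 12`, `T · ord_Q f̄_z ≡ c_V (mod m)` ⟹
`k_Q · ν_Q(z) = c_V · 12⁻¹` in `ZMod m`. -/
theorem twfh_k_mul_of_slope (i : s44e_Sg A M q hq.out hqM) (z : JZero (M * q)) {T cV : ℤ}
    (hu : T * Place.ord i.1 (s44e_ubar A M q) = 12)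
    (hV : T * Place.ord i.1 (twfr_fbar A M q m z) ≡ cV [ZMOD (m : ℤ)]) :
    twfh_k A M q hq.out hqM m i * twfr_nu A M q hq.out hqM m z i =
      (cV : ZMod m) * ((12 : ℤ) : ZMod m)⁻¹ := by
  have h12 : IsUnit (((12 : ℤ)) : ZMod m) := twfh_isUnit_of_dvd_twelve hm6 (dvd_refl _)
  have hu' : ((T : ℤ) : ZMod m) * twfh_ordU A M q m i.1 = ((12 : ℤ) : ZMod m) := by
    rw [twfh_ordU_def, ← hu]; push_cast; ring
  have hV' : ((T : ℤ) : ZMod m) * twfr_nu A M q hq.out hqM m z i = (cV : ZMod m) := by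
    have := (ZMod.intCast_eq_intCast_iff _ _ m).2 hV
    rw [← this]
    show _ * twfr_nuAll A M q m z i.1 = _
    rw [twfr_nuAll]; push_cast; ring
  have hk := twfh_k_mul_ordU A hA M hqM hq2 hm6 i
  rw [← twfh_ordU_def] at hk
  -- `k = T · 12⁻¹`
  have hkT : twfh_k A M q hq.out hqM m i = ((T : ℤ) : ZMod m) * ((12 : ℤ) : ZMod m)⁻¹ := by
    have h1 : twfh_k A M q hq.out hqM m i * ((12 : ℤ) : ZMod m) = ((T : ℤ) : ZMod m) := by
      rw [← hu', mul_comm ((T : ℤ) : ZMod m), ← mul_assoc, hk, one_mul]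
    rw [← h1, mul_assoc, ZMod.mul_inv_of_unit _ h12, mul_one]
  rw [hkT, mul_right_comm, hV']

end Weights

end Fermat.Agent.TW

end
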