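/-
Project ONE MACHINE, block [F], cells (Z3)+(Z4) ⟹ `twf_CompCells` / `twf_CompAll_stmt`
(helper11; prefix `twfh_`).  Pure assembly on helper1's seam file `TW/Easy/GeoSeam.lean`:

* `twfh_Mono_stmt A M hqM m` : **(Z3) [MONO-tame]** in the shape of the field `mono` of
  `twf_CompCells`, for the weights `k = twfh_k` (`Weights.lean`): `z ∈ J₀(M q)[m]` fixed by `I_A` ⟹
  `∃ c, ∀ i, k_i ν_i(z) = c`;
* `twfh_compCells`  : (Z3) ⟹ `twf_CompCells A M hqM m ∅ twfh_k twfh_B` (fields `k_unit`, `heckeRes`,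
  `B_eis` = (Z4), `Main.lean`);
* `twfh_MonoAll_stmt`, `twfh_compAll_of_mono` : (Z3) for all `(M, q, p, A)` ⟹ `twf_CompAll_stmt`
  (the input `hC` of `twf_mazur_of_cells` / `twf_mazur_staged_of_cells`).
-/
import Mathlib
import Fermat.Agent.TW.Easy.GeoSeam
import Fermat.Agent.TW.Easy.HeckeRes.Main

set_option autoImplicit false
set_option linter.unusedSectionVars false
set_option linter.unusedVariables false
set_option linter.style.haveILetI false
set_option synthInstance.maxHeartbeats 400000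
set_option maxHeartbeats 1000000

noncomputable section

namespace Fermat.Agent.TW

open ModularCurve AlgebraicCurve IsLocalRing
open Fermat.Agent.JT3 Fermat.Agent.SS Fermat.Agent.S35 Fermat.Agent.S24 Fermat.Agent.S44

local notation "Qb" => AlgebraicClosure ℚ

section Cells

variable (A : ValuationSubring Qb) {q : ℕ} [hq : Fact q.Prime]
  (M : ℕ) [NeZero M] [NeZero q] [NeZero (M * q)] (hqM : ¬ q ∣ M) (m : ℕ)

/-- **(Z3) [MONO-tame]** for the weights `twfh_k`: the shape of the field `mono` of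
`twf_CompCells`. -/
def twfh_Mono_stmt : Prop :=
  ∀ z : JZero (M * q), m • z = 0 → (∀ σ ∈ A.inertiaSubgroupIn ℚ, σ • z = z) →
    ∃ c : ZMod m, ∀ i, twfh_k A M q hq.out hqM m i * twfr_nu A M q hq.out hqM m z i = c

variable {m}

/-- **(Z3) ⟹ the component-group cells** for `S = ∅`, `k = twfh_k`, `B = twfh_B`. -/
theorem twfh_compCells (hA : A.LiesOverPrime q) (hq2 : q ≠ 2) (hm0 : m ≠ 0)
    (hm6 : Nat.Coprime m 6) (hmono : twfh_Mono_stmt A M hqM m) :
    twf_CompCells A M hqM m ∅ (twfh_k A M q hq.out hqM m) (twfh_B A hA M hqM m) where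
  k_unit := fun i => twfh_k_isUnit A hA M hqM hq2 hm6 i
  mono := hmono
  heckeRes := fun ℓ hℓN _ z hz => twfh_heckeRes A hA M hqM hq2 hm0 hm6 ℓ hℓN z hz
  B_eis := fun ℓ hℓN _ => twfh_BEis A hA M hqM hq2 hm6 ℓ hℓN

end Cells

/-- a prime `p ≥ 5` is coprime to `6`. -/
theorem twfh_coprime_six {p : ℕ} (hp : p.Prime) (hp5 : 5 ≤ p) : Nat.Coprime p 6 := by
  have h2 : Nat.Coprime p 2 := (Nat.Prime.coprime_iff_not_dvd hp).2 (fun h => by
    have := Nat.le_of_dvd (by norm_num) h; omega)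
  have h3 : Nat.Coprime p 3 := (Nat.Prime.coprime_iff_not_dvd hp).2 (fun h => by
    have := Nat.le_of_dvd (by norm_num) h; omega)
  exact Nat.Coprime.mul_right h2 h3

/-- **(Z3)** for all `(M, q, p, A)`, `p ≥ 5` prime, `p ≠ q`, `q` odd. -/
def twfh_MonoAll_stmt : Prop :=
  ∀ (M q : ℕ) [NeZero M] [NeZero q] [NeZero (M * q)] [hq : Fact q.Prime] (hqM : ¬ q ∣ M) (p : ℕ),
    q ≠ 2 → p.Prime → 5 ≤ p → p ≠ q → ∀ A : ValuationSubring Qb, A.LiesOverPrime q →
      twfh_Mono_stmt A M hqM p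

/-- **(Z3) for all `(M, q, p, A)` ⟹ `twf_CompAll_stmt`** ((Z4) plugged in). -/
theorem twfh_compAll_of_mono (h : twfh_MonoAll_stmt) : twf_CompAll_stmt := by
  intro M q _ _ _ hq hqM p hq2 hp hp5 hpq A hA
  exact ⟨∅, _, _, twfh_compCells A M hqM hA hq2 hp.ne_zero (twfh_coprime_six hp hp5)
    (h M q hqM p hq2 hp hp5 hpq A hA)⟩

end Fermat.Agent.TW

end
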